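import Fermat.Agent.S49.QCoeff
import Fermat.Prelude.Def_CuspForm_HeckeLocal
import Fermat.Prelude.Def_CuspForm_IntegralLattice

/-!
# S49 helper: the integral lattice, its coefficient functionals
-/

set_option autoImplicit false

open CongruenceSubgroup ModularFormClass CuspForm

namespace Fermat.Agent.S49

variable {N : ℕ}

theorem S49_qCoeff_zsmul (z : ℤ) (f : CuspForm (Gamma0 N) 2) (n : ℕ) :
    qCoeff (⇑(z • f)) n = z * qCoeff f n := by
  have : z • f = (z : ℂ) • f := (Int.cast_smul_eq_zsmul ℂ z f).symm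
  rw [this, S49_qCoeff_smul]

theorem S49_qCoeff_zero_fun (n : ℕ) : qCoeff (0 : UpperHalfPlane → ℂ) n = 0 := by
  simp [qCoeff, UpperHalfPlane.qExpansion_zero]

theorem S49_qCoeff_zero_form (n : ℕ) : qCoeff (⇑(0 : CuspForm (Gamma0 N) 2)) n = 0 := by
  have := S49_qCoeff_smul (0 : ℂ) (0 : CuspForm (Gamma0 N) 2) n
  simpa using this

theorem S49_qCoeff_sub (f g : CuspForm (Gamma0 N) 2) (n : ℕ) :
    qCoeff (⇑(f - g)) n = qCoeff f n - qCoeff g n := by
  have h : f - g = f + (-1 : ℂ) • g := by rw [neg_one_smul, sub_eq_add_neg]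
  rw [h, S49_qCoeff_add, S49_qCoeff_smul]
  ring

theorem S49_coeff_int_of_mem {x : CuspForm (Gamma0 N) 2} (hx : x ∈ intLattice N 2) (n : ℕ) :
    ∃ m : ℤ, qCoeff x n = (m : ℂ) := by
  induction hx using Submodule.span_induction with
  | mem x hx => exact hx n
  | zero => exact ⟨0, by simp [S49_qCoeff_zero_fun]⟩
  | add x y _ _ hx hy =>
    obtain ⟨a, ha⟩ := hx
    obtain ⟨b, hb⟩ := hy
    exact ⟨a + b, by rw [S49_qCoeff_add, ha, hb]; push_cast; rfl⟩
  | smul z x _ hx =>
    obtain ⟨a, ha⟩ := hx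
    exact ⟨z * a, by rw [S49_qCoeff_zsmul, ha]; push_cast; rfl⟩

theorem S49_mem_intLattice_of_coeff {x : CuspForm (Gamma0 N) 2}
    (hx : ∀ n : ℕ, ∃ m : ℤ, qCoeff x n = (m : ℂ)) : x ∈ intLattice N 2 :=
  Submodule.subset_span hx

/-- The `n`-th integer coefficient of a lattice element. -/
noncomputable def S49_intCoeff (n : ℕ) (x : intLattice N 2) : ℤ :=
  Classical.choose (S49_coeff_int_of_mem x.2 n)

theorem S49_intCoeff_spec (n : ℕ) (x : intLattice N 2) :
    qCoeff (x : CuspForm (Gamma0 N) 2) n = (S49_intCoeff n x : ℂ) :=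
  Classical.choose_spec (S49_coeff_int_of_mem x.2 n)

theorem S49_intCoeff_eq (n : ℕ) (x : intLattice N 2) (m : ℤ)
    (h : qCoeff (x : CuspForm (Gamma0 N) 2) n = (m : ℂ)) : S49_intCoeff n x = m := by
  have := (S49_intCoeff_spec n x).symm.trans h
  exact_mod_cast this

theorem S49_intCoeff_add (n : ℕ) (x y : intLattice N 2) :
    S49_intCoeff n (x + y) = S49_intCoeff n x + S49_intCoeff n y := by
  apply S49_intCoeff_eq
  rw [Submodule.coe_add, S49_qCoeff_add, S49_intCoeff_spec, S49_intCoeff_spec]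
  push_cast; rfl

theorem S49_intCoeff_zsmul (n : ℕ) (z : ℤ) (x : intLattice N 2) :
    S49_intCoeff n (z • x) = z * S49_intCoeff n x := by
  apply S49_intCoeff_eq
  rw [Submodule.coe_smul, S49_qCoeff_zsmul, S49_intCoeff_spec]
  push_cast; rfl

/-- The functional "first coefficient mod 3". -/
noncomputable def S49_alpha : intLattice N 2 →+ ZMod 3 where
  toFun x := (S49_intCoeff 1 x : ZMod 3)
  map_zero' := by
    have : S49_intCoeff 1 (0 : intLattice N 2) = 0 := by
      apply S49_intCoeff_eq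
      simp [S49_qCoeff_zero_fun]
    simp [this]
  map_add' x y := by
    rw [S49_intCoeff_add]; push_cast; rfl

theorem S49_alpha_apply (x : intLattice N 2) : S49_alpha x = (S49_intCoeff 1 x : ZMod 3) := rfl

theorem S49_alpha_zsmul (z : ℤ) (x : intLattice N 2) :
    S49_alpha (z • x) = (z : ZMod 3) * S49_alpha x := by
  rw [S49_alpha_apply, S49_intCoeff_zsmul]; push_cast; rfl

theorem S49_alpha_three_smul (x : intLattice N 2) : S49_alpha ((3 : ℤ) • x) = 0 := by
  rw [S49_alpha_zsmul]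
  have : ((3 : ℤ) : ZMod 3) = 0 := by decide
  rw [this, zero_mul]

/-- If every coefficient of `x` is an integer multiple of `3`, then `x = 3 • y` with `y` in the
lattice. -/
theorem S49_exists_eq_three_smul {x : CuspForm (Gamma0 N) 2}
    (hx : ∀ n : ℕ, ∃ m : ℤ, qCoeff x n = 3 * (m : ℂ)) :
    ∃ y ∈ intLattice N 2, x = (3 : ℤ) • y := by
  refine ⟨(3⁻¹ : ℂ) • x, S49_mem_intLattice_of_coeff fun n => ?_, ?_⟩
  · obtain ⟨m, hm⟩ := hx n
    exact ⟨m, by rw [S49_qCoeff_smul, hm]; field_simp⟩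
  · rw [← Int.cast_smul_eq_zsmul ℂ, smul_smul]
    norm_num

theorem S49_finiteDimensional [NeZero N] (h : HasIntegralBasis N) :
    FiniteDimensional ℂ (CuspForm (Gamma0 N) 2) := by
  obtain ⟨s, hs⟩ := intLattice_fg N 2
  have hsub : qIntegralSet N ⊆ (intLattice N 2 : Set (CuspForm (Gamma0 N) 2)) := by
    intro f hf
    refine S49_mem_intLattice_of_coeff fun n => ?_
    obtain ⟨m, hm⟩ := Subring.mem_bot.mp (hf n)
    exact ⟨m, hm.symm⟩
  have hle : (intLattice N 2 : Set (CuspForm (Gamma0 N) 2)) ⊆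
      (Submodule.span ℂ (s : Set (CuspForm (Gamma0 N) 2)) : Set (CuspForm (Gamma0 N) 2)) := by
    intro x hx
    rw [← hs] at hx
    exact Submodule.span_subset_span ℤ ℂ _ hx
  have htop : Submodule.span ℂ (s : Set (CuspForm (Gamma0 N) 2)) = ⊤ := by
    rw [eq_top_iff, ← h]
    exact Submodule.span_le.mpr (hsub.trans hle)
  exact Module.Finite.of_fg_top ⟨s, htop⟩ |> fun h => h

theorem S49_hasIntegralStructure (h : HasIntegralBasis N) : HasIntegralStructure N 2 := by
  have hsub : qIntegralSet N ⊆ (intLattice N 2 : Set (CuspForm (Gamma0 N) 2)) := by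
    intro f hf
    refine S49_mem_intLattice_of_coeff fun n => ?_
    obtain ⟨m, hm⟩ := Subring.mem_bot.mp (hf n)
    exact ⟨m, hm.symm⟩
  unfold HasIntegralStructure
  rw [eq_top_iff, ← h]
  exact Submodule.span_mono hsub

end Fermat.Agent.S49
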