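import Mathlib

/-!
# S49 helper: common eigenvectors for commuting families (finite-dimensional, alg. closed field)
-/

set_option autoImplicit false

namespace Fermat.Agent.S49

/-- A commuting family of endomorphisms stabilising a nonzero finite-dimensional subspace `W`
has a common eigenvector in `W`. -/
theorem S49_exists_common_eigenvector {K V : Type*} [Field K] [IsAlgClosed K] [AddCommGroup V]
    [Module K V] [FiniteDimensional K V] (S : Set (Module.End K V))
    (hS : ∀ s ∈ S, ∀ t ∈ S, Commute s t) :
    ∀ (n : ℕ) (W : Submodule K V), Module.finrank K W = n → W ≠ ⊥ →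
      (∀ s ∈ S, ∀ w ∈ W, s w ∈ W) →
      ∃ v ∈ W, v ≠ 0 ∧ ∀ s ∈ S, ∃ μ : K, s v = μ • v := by
  intro n
  induction n using Nat.strong_induction_on with
  | _ n ih =>
    intro W hn hW hstab
    by_cases hsc : ∀ s ∈ S, ∃ μ : K, ∀ w ∈ W, s w = μ • w
    · obtain ⟨v, hvW, hv0⟩ := Submodule.exists_mem_ne_zero_of_ne_bot hW
      exact ⟨v, hvW, hv0, fun s hs => (hsc s hs).imp fun μ h => h v hvW⟩
    · push Not at hsc
      obtain ⟨s, hs, hns⟩ := hsc
      haveI : Nontrivial W := Submodule.nontrivial_iff_ne_bot.mpr hW
      obtain ⟨μ, hμ⟩ := Module.End.exists_eigenvalue (s.restrict (hstab s hs))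
      obtain ⟨w, hw⟩ := hμ.exists_hasEigenvector
      have hw1 : s (w : V) = μ • (w : V) := by
        have := congrArg Subtype.val hw.apply_eq_smul
        simpa using this
      have hw0 : (w : V) ≠ 0 := fun h => hw.2 (Subtype.ext h)
      set W' : Submodule K V := W ⊓ LinearMap.ker (s - μ • (1 : Module.End K V)) with hW'
      have hmem : ∀ x, x ∈ W' ↔ x ∈ W ∧ s x = μ • x := by
        intro x
        simp only [hW', Submodule.mem_inf, LinearMap.mem_ker, LinearMap.sub_apply,
          LinearMap.smul_apply, Module.End.one_apply, sub_eq_zero]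
      have hW'ne : W' ≠ ⊥ := by
        intro h
        have : (w : V) ∈ W' := (hmem _).2 ⟨w.2, hw1⟩
        rw [h, Submodule.mem_bot] at this
        exact hw0 this
      have hW'le : W' ≤ W := inf_le_left
      have hW'lt : W' < W := by
        refine lt_of_le_of_ne hW'le fun h => ?_
        obtain ⟨x, hxW, hx⟩ := hns μ
        exact hx (((hmem x).1 (h ▸ hxW)).2)
      have hfr : Module.finrank K W' < n := hn ▸ Submodule.finrank_lt_finrank_of_lt hW'lt
      have hstab' : ∀ t ∈ S, ∀ x ∈ W', t x ∈ W' := by
        intro t ht x hx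
        obtain ⟨hxW, hxs⟩ := (hmem x).1 hx
        refine (hmem _).2 ⟨hstab t ht x hxW, ?_⟩
        have hc : s (t x) = t (s x) := by
          have := congrArg (fun f : Module.End K V => f x) (hS s hs t ht).eq
          simpa using this
        rw [hc, hxs, map_smul]
      obtain ⟨v, hvW', hv0, hv⟩ := ih _ hfr W' rfl hW'ne hstab'
      exact ⟨v, hW'le hvW', hv0, hv⟩

end Fermat.Agent.S49
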