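import Mathlib
import Fermat.Agent.S49.CommonEigen

/-!
# S49 helper: the Deligne–Serre lifting lemma (abstract form)
-/

set_option autoImplicit false

namespace Fermat.Agent.S49

open Ideal

/-- Deligne–Serre lifting lemma, abstract form.  A commutative ring `H`, finite over `ℤ`, acting
faithfully and `ℂ`-linearly on a finite-dimensional space `V`; for every maximal ideal `𝔪` of `H`
there is a common eigenvector whose eigencharacter `ψ : H → ℤ̄` admits a maximal ideal `𝔪'` of `ℤ̄`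
with `ψ⁻¹ 𝔪' = 𝔪`. -/
theorem S49_deligneSerre {H : Type*} [CommRing H] [Module.Finite ℤ H]
    {V : Type*} [AddCommGroup V] [Module ℂ V] [FiniteDimensional ℂ V]
    (ρ : H →+* Module.End ℂ V) (hρ : Function.Injective ρ)
    (𝔪 : Ideal H) [h𝔪 : 𝔪.IsMaximal] :
    ∃ (g : V) (ψ : H →+* integralClosure ℤ ℂ) (𝔪' : Ideal (integralClosure ℤ ℂ)),
      g ≠ 0 ∧ (∀ t, ρ t g = ((ψ t : integralClosure ℤ ℂ) : ℂ) • g) ∧ 𝔪'.IsMaximal ∧
        𝔪'.comap ψ = 𝔪 := by
  classical
  have hNoeth : IsNoetherianRing H := IsNoetherianRing.of_finite ℤ H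
  have hInt : Algebra.IsIntegral ℤ H := inferInstance
  -- a minimal prime below `𝔪`
  obtain ⟨𝔭, h𝔭min, h𝔭le⟩ := Ideal.exists_minimalPrimes_le (I := (⊥ : Ideal H)) (J := 𝔪) bot_le
  have h𝔭prime : 𝔭.IsPrime := h𝔭min.1.1
  -- `𝔭` is an associated prime of `H`
  have hann : Module.annihilator H H = ⊥ := by
    rw [eq_bot_iff]
    intro x hx
    have := Module.mem_annihilator.mp hx (1 : H)
    simpa using this
  have hass : 𝔭 ∈ associatedPrimes H H :=
    Module.associatedPrimes.minimalPrimes_annihilator_subset_associatedPrimes H H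
      (by rw [hann]; exact h𝔭min)
  obtain ⟨-, s, hs⟩ := (isAssociatedPrime_iff (M := H)).mp hass
  have hmem𝔭 : ∀ t : H, t ∈ 𝔭 ↔ t * s = 0 := by
    intro t
    rw [hs, Submodule.mem_colon_singleton, Submodule.mem_bot, smul_eq_mul]
  have hs0 : s ≠ 0 := by
    rintro rfl
    exact h𝔭prime.ne_top ((Ideal.eq_top_iff_one _).2 ((hmem𝔭 1).2 (by simp)))
  -- a nonzero vector killed by `𝔭`
  have hρs : ρ s ≠ 0 := fun h => hs0 (hρ (h.trans (map_zero ρ).symm))
  obtain ⟨v, hv⟩ : ∃ v, ρ s v ≠ 0 := by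
    by_contra hcon
    push Not at hcon
    exact hρs (LinearMap.ext hcon)
  set W : Submodule ℂ V := ⨅ t : 𝔭, LinearMap.ker (ρ (t : H)) with hW
  have hmemW : ∀ x, x ∈ W ↔ ∀ t ∈ 𝔭, ρ t x = 0 := by
    intro x
    simp only [hW, Submodule.mem_iInf, LinearMap.mem_ker, Subtype.forall]
  have hyW : ρ s v ∈ W := by
    rw [hmemW]
    intro t ht
    have : ρ t (ρ s v) = ρ (t * s) v := by rw [map_mul]; rfl
    rw [this, (hmem𝔭 t).1 ht, map_zero]; rfl
  have hWne : W ≠ ⊥ := fun h => hv ((Submodule.mem_bot ℂ).1 (h ▸ hyW))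
  -- common eigenvector
  have hcomm : ∀ a ∈ Set.range ρ, ∀ b ∈ Set.range ρ, Commute a b := by
    rintro _ ⟨a, rfl⟩ _ ⟨b, rfl⟩
    exact (Commute.all a b).map ρ
  have hstab : ∀ a ∈ Set.range ρ, ∀ w ∈ W, a w ∈ W := by
    rintro _ ⟨a, rfl⟩ w hw
    rw [hmemW] at hw ⊢
    intro t ht
    have h1 : ρ t (ρ a w) = ρ a (ρ t w) := by
      have := congrArg (fun f : Module.End ℂ V => f w) ((Commute.all t a).map ρ).eq
      simpa using this
    rw [h1, hw t ht, map_zero]
  obtain ⟨g, hgW, hg0, hg⟩ :=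
    S49_exists_common_eigenvector (Set.range ρ) hcomm _ W rfl hWne hstab
  have hg' : ∀ t : H, ∃ μ : ℂ, ρ t g = μ • g := fun t => hg _ ⟨t, rfl⟩
  choose μ hμ using hg'
  have huniq : ∀ (t : H) (c : ℂ), ρ t g = c • g → μ t = c := by
    intro t c hc
    have h : (μ t - c) • g = 0 := by rw [sub_smul, ← hμ t, hc, sub_self]
    rcases smul_eq_zero.1 h with h | h
    · exact sub_eq_zero.1 h
    · exact absurd h hg0
  let ψ₀ : H →+* ℂ :=
    { toFun := μ
      map_one' := huniq 1 1 (by simp)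
      map_mul' := fun a b => huniq _ _ (by
        rw [map_mul, Module.End.mul_apply, hμ b, map_smul, hμ a, smul_smul, mul_comm])
      map_zero' := huniq 0 0 (by simp)
      map_add' := fun a b => huniq _ _ (by
        rw [map_add, LinearMap.add_apply, hμ a, hμ b, add_smul]) }
  have hψ₀ : ∀ t, ψ₀ t = μ t := fun _ => rfl
  have hψint : ∀ t, ψ₀ t ∈ integralClosure ℤ ℂ := fun t =>
    map_isIntegral_int ψ₀ (Algebra.IsIntegral.isIntegral t)
  let ψ : H →+* integralClosure ℤ ℂ := ψ₀.codRestrict (integralClosure ℤ ℂ) hψint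
  have hψ : ∀ t, ((ψ t : integralClosure ℤ ℂ) : ℂ) = μ t := fun _ => rfl
  -- kernel of ψ is 𝔭
  have hker_prime : (RingHom.ker ψ₀).IsPrime := RingHom.ker_isPrime ψ₀
  have h𝔭ker : 𝔭 ≤ RingHom.ker ψ₀ := by
    intro t ht
    rw [RingHom.mem_ker, hψ₀]
    exact huniq t 0 (by rw [(hmemW g).1 hgW t ht, zero_smul])
  have hkerZ : (RingHom.ker ψ₀).comap (algebraMap ℤ H) = ⊥ := by
    rw [eq_bot_iff]
    intro n hn
    rw [Ideal.mem_comap, RingHom.mem_ker] at hn
    have : ((n : ℤ) : ℂ) = 0 := by simpa using hn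
    simpa using this
  have hker_eq : RingHom.ker ψ₀ = 𝔭 := by
    by_contra hne
    have hlt : 𝔭 < RingHom.ker ψ₀ := lt_of_le_of_ne h𝔭ker (Ne.symm hne)
    obtain ⟨x, hx1, hx2⟩ := SetLike.exists_of_lt hlt
    have := Ideal.comap_lt_comap_of_integral_mem_sdiff (R := ℤ) h𝔭ker ⟨hx1, hx2⟩
      (Algebra.IsIntegral.isIntegral x)
    rw [hkerZ] at this
    exact not_lt_bot this
  have hkerψ : RingHom.ker ψ = 𝔭 := by
    rw [← hker_eq]
    ext t
    simp only [RingHom.mem_ker]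
    constructor
    · intro h
      exact congrArg (Subtype.val) h
    · intro h
      exact Subtype.ext h
  -- lying over
  letI : Algebra H (integralClosure ℤ ℂ) := ψ.toAlgebra
  have hInt' : Algebra.IsIntegral H (integralClosure ℤ ℂ) := by
    constructor
    intro z
    have hz : IsIntegral ℤ z := Algebra.IsIntegral.isIntegral z
    exact hz.tower_top
  obtain ⟨𝔪', h𝔪'max, h𝔪'⟩ :=
    Ideal.exists_ideal_over_maximal_of_isIntegral (S := integralClosure ℤ ℂ) 𝔪
      (by rw [RingHom.algebraMap_toAlgebra, hkerψ]; exact h𝔭le)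
  refine ⟨g, ψ, 𝔪', hg0, fun t => ?_, h𝔪'max, h𝔪'⟩
  rw [hψ]; exact hμ t

end Fermat.Agent.S49
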