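import Mathlib

/-!
# S49 helper: a Hecke eigen-relation at all primes forces multiplicativity of the coefficients
-/

set_option autoImplicit false

namespace Fermat.Agent.S49

/-- The Hecke relations at primes imply multiplicativity on coprime arguments. -/
theorem S49_mul_of_rel {R : Type*} [CommRing R] (e b : ℕ → R) (h1 : b 1 = 1)
    (hrel : ∀ ℓ : ℕ, ℓ.Prime → ∀ n : ℕ,
      b (n * ℓ) + (if ℓ ∣ n then e ℓ * b (n / ℓ) else 0) = b ℓ * b n) :
    ∀ m n : ℕ, m.Coprime n → b (m * n) = b m * b n := by
  intro m
  induction m using Nat.strong_induction_on with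
  | _ m ih =>
    intro n hmn
    rcases Nat.lt_or_ge m 2 with hm | hm
    · interval_cases m
      · have hn : n = 1 := by simpa using hmn
        subst hn
        simp [h1]
      · simp [h1]
    · obtain ⟨ℓ, hℓ, hℓm⟩ := Nat.exists_prime_and_dvd (show m ≠ 1 by omega)
      obtain ⟨m', rfl⟩ := hℓm
      have hℓpos : 0 < ℓ := hℓ.pos
      have hm'pos : 0 < m' := by
        rcases Nat.eq_zero_or_pos m' with h | h
        · subst h; simp at hm
        · exact h
      have hm'lt : m' < ℓ * m' := by
        have := hℓ.two_le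
        nlinarith
      have hcop' : m'.Coprime n := Nat.Coprime.coprime_mul_left hmn
      have hℓn : ¬ ℓ ∣ n := by
        intro h
        have hcopℓ : ℓ.Coprime n := Nat.Coprime.coprime_mul_right hmn
        have := Nat.eq_one_of_dvd_coprimes hcopℓ (dvd_refl ℓ) h
        exact hℓ.one_lt.ne' this
      have e1 : ℓ * m' * n = (m' * n) * ℓ := by ring
      have e2 : ℓ * m' = m' * ℓ := by ring
      have r1 := hrel ℓ hℓ (m' * n)
      have r2 := hrel ℓ hℓ m'
      have ih1 := ih m' hm'lt n hcop'
      rw [e1]
      rw [e2]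
      by_cases hd : ℓ ∣ m'
      · obtain ⟨m'', rfl⟩ := hd
        have hm''pos : 0 < m'' := by
          rcases Nat.eq_zero_or_pos m'' with h | h
          · subst h; simp at hm'pos
          · exact h
        have hm''lt : m'' < ℓ * (ℓ * m'') := by
          have := hℓ.two_le
          nlinarith
        have hcop'' : m''.Coprime n := Nat.Coprime.coprime_mul_left hcop'
        have ih2 := ih m'' hm''lt n hcop''
        have hd1 : ℓ ∣ ℓ * m'' * n := ⟨m'' * n, by ring⟩
        have hd2 : ℓ ∣ ℓ * m'' := Dvd.intro _ rfl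
        have q1 : ℓ * m'' * n / ℓ = m'' * n := by
          rw [mul_assoc]; exact Nat.mul_div_cancel_left _ hℓpos
        have q2 : ℓ * m'' / ℓ = m'' := Nat.mul_div_cancel_left _ hℓpos
        rw [if_pos hd1, q1, ih1, ih2] at r1
        rw [if_pos hd2, q2] at r2
        have r1' : b (ℓ * m'' * n * ℓ) = b ℓ * (b (ℓ * m'') * b n) - e ℓ * (b m'' * b n) :=
          eq_sub_of_add_eq r1
        have r2' : b (ℓ * m'' * ℓ) = b ℓ * b (ℓ * m'') - e ℓ * b m'' := eq_sub_of_add_eq r2
        rw [r1', r2']
        ring
      · have hd1 : ¬ ℓ ∣ m' * n := by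
          intro h
          rcases (Nat.Prime.dvd_mul hℓ).1 h with h | h
          · exact hd h
          · exact hℓn h
        rw [if_neg hd1, add_zero, ih1] at r1
        rw [if_neg hd, add_zero] at r2
        rw [r1, r2]
        ring

end Fermat.Agent.S49

namespace Fermat.Agent.S49

/-- If the first two coefficients vanish, the Hecke relations force all coefficients to vanish. -/
theorem S49_vanish_of_rel {R : Type*} [CommRing R] (e lam b : ℕ → R) (h0 : b 0 = 0) (h1 : b 1 = 0)
    (hrel : ∀ ℓ : ℕ, ℓ.Prime → ∀ n : ℕ,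
      b (n * ℓ) + (if ℓ ∣ n then e ℓ * b (n / ℓ) else 0) = lam ℓ * b n) :
    ∀ n : ℕ, b n = 0 := by
  intro n
  induction n using Nat.strong_induction_on with
  | _ n ih =>
    rcases Nat.lt_or_ge n 2 with hn | hn
    · interval_cases n
      · exact h0
      · exact h1
    · obtain ⟨ℓ, hℓ, hℓn⟩ := Nat.exists_prime_and_dvd (show n ≠ 1 by omega)
      obtain ⟨m, rfl⟩ := hℓn
      have hmpos : 0 < m := by
        rcases Nat.eq_zero_or_pos m with h | h
        · subst h; simp at hn
        · exact h
      have hmlt : m < ℓ * m := by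
        have := hℓ.two_le
        nlinarith
      have hdiv : m / ℓ < ℓ * m := lt_of_le_of_lt (Nat.div_le_self _ _) hmlt
      have r := hrel ℓ hℓ m
      rw [ih m hmlt, ih (m / ℓ) hdiv] at r
      have e1 : ℓ * m = m * ℓ := by ring
      rw [e1]
      simpa using r

end Fermat.Agent.S49
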