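import Fermat.Agent.S49.Main
import Fermat.Prelude.Def_FormalHecke_Eigensystem
import Fermat.Prelude.Def_ModularForm_EisensteinChiNegThree

/-!
# S49 helper: a lattice-realised `χ₋₃`-eigensystem gives a mod-3 eigenvector in the lattice
-/

set_option autoImplicit false

open CuspForm EisensteinWeightOne CongruenceSubgroup ModularFormClass

namespace Fermat.Agent.S49

theorem S49_chiNegThree_mod_three (ℓ : ℕ) : ((chiNegThree ℓ : ℤ) : ZMod 3) = (ℓ : ZMod 3) := by
  have h : (ℓ : ZMod 3) = ((ℓ % 3 : ℕ) : ZMod 3) := by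
    rw [ZMod.natCast_mod]
  rw [h]
  unfold chiNegThree
  have hlt : ℓ % 3 < 3 := Nat.mod_lt _ (by norm_num)
  interval_cases hℓ : ℓ % 3 <;> simp <;> decide

theorem S49_map_e1Chi3 :
    PowerSeries.map (Int.castRingHom (ZMod 3)) (e1Chi3In ℤ) = 1 := by
  ext n
  simp only [e1Chi3In, e1Chi3, PowerSeries.coeff_map, PowerSeries.coeff_mk, PowerSeries.coeff_one]
  split_ifs with hn
  · simp
  · have h6 : (6 : ZMod 3) = 0 := by decide
    simp [h6]

theorem S49_bridge_coeff (a : ℕ → ℤ) (n : ℕ) :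
    (((bridgeProduct a).coeff n : ℤ) : ZMod 3) = (a n : ZMod 3) := by
  have h : PowerSeries.map (Int.castRingHom (ZMod 3)) (bridgeProduct a) =
      PowerSeries.map (Int.castRingHom (ZMod 3)) (PowerSeries.mk a) := by
    rw [bridgeProduct, map_mul, S49_map_e1Chi3, mul_one]
  have := congrArg (PowerSeries.coeff n) h
  simpa [PowerSeries.coeff_map] using this

variable {N : ℕ} [NeZero N]

theorem S49_mod3Eigen_of_realized {a : ℕ → ℤ}
    (heig : FormalHecke.IsEigensystem
      (fun ℓ => if ℓ ∣ N then 0 else ((chiNegThree ℓ : ℤ) : ℤ)) a)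
    (hreal : CuspForm.IsLatticeRealized N a) :
    ∃ f : CuspForm (Gamma0 N) 2, S49_Mod3Eigen N f a := by
  obtain ⟨f, hfq, af, haf, h3⟩ := hreal
  obtain ⟨ha1, hrel⟩ := heig
  have hfL : f ∈ intLattice N 2 :=
    S49_mem_intLattice_of_coeff fun n => ⟨af n, (haf n).symm⟩
  have hafa : ∀ n, (af n : ZMod 3) = (a n : ZMod 3) := by
    intro n
    rw [← S49_bridge_coeff a n]
    have := (ZMod.intCast_zmod_eq_zero_iff_dvd _ 3).2 (h3 n)
    push_cast at this
    exact sub_eq_zero.1 this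
  have hrelZ : ∀ ℓ : ℕ, ℓ.Prime → ∀ n : ℕ,
      (a (ℓ * n) : ZMod 3) + (if ℓ ∣ N then 0 else (ℓ : ZMod 3)) *
        (if ℓ ∣ n then (a (n / ℓ) : ZMod 3) else 0) = (a ℓ : ZMod 3) * (a n : ZMod 3) := by
    intro ℓ hℓ n
    have := congrArg (fun z : ℤ => (z : ZMod 3)) (hrel ℓ hℓ n)
    simp only at this
    push_cast at this
    rw [← this]
    congr 1
    by_cases hN : ℓ ∣ N
    · simp [hN]
    · simp only [if_neg hN, S49_chiNegThree_mod_three]
  refine ⟨f, hfL, ⟨af 1, (haf 1).symm, ?_⟩, ?_, ?_⟩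
  · rw [hafa, ha1]; simp
  · intro ℓ hℓ hℓN
    have key : ∀ n : ℕ, ∃ m : ℤ, qCoeff (⇑(heckeTLin 2 hℓ hℓN f - a ℓ • f)) n = 3 * (m : ℂ) := by
      intro n
      set K : ℤ := af (n * ℓ) + (if ℓ ∣ n then (ℓ : ℤ) * af (n / ℓ) else 0) - a ℓ * af n with hK
      have hK0 : (K : ZMod 3) = 0 := by
        have := hrelZ ℓ hℓ n
        rw [if_neg hℓN] at this
        rw [hK]
        by_cases hd : ℓ ∣ n
        · simp only [if_pos hd] at this ⊢
          push_cast
          rw [hafa, hafa, hafa, mul_comm n ℓ]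
          linear_combination this
        · simp only [if_neg hd] at this ⊢
          push_cast
          rw [hafa, hafa, mul_comm n ℓ]
          linear_combination this
      obtain ⟨m, hm⟩ := (ZMod.intCast_zmod_eq_zero_iff_dvd K 3).1 hK0
      refine ⟨m, ?_⟩
      rw [S49_qCoeff_sub, S49_qCoeff_heckeTLin hℓ hℓN, S49_qCoeff_zsmul]
      simp only [← haf]
      have hm' : (K : ℂ) = 3 * (m : ℂ) := by rw [hm]; push_cast; ring
      rw [← hm', hK]
      by_cases hd : ℓ ∣ n
      · simp only [if_pos hd]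
        push_cast; ring
      · simp only [if_neg hd]
        push_cast; ring
    obtain ⟨y, hy, hxy⟩ := S49_exists_eq_three_smul key
    exact ⟨y, hy, by rw [← hxy]; abel⟩
  · intro q hq hqN
    have key : ∀ n : ℕ, ∃ m : ℤ, qCoeff (⇑(heckeULin 2 hqN f - a q • f)) n = 3 * (m : ℂ) := by
      intro n
      set K : ℤ := af (n * q) - a q * af n with hK
      have hK0 : (K : ZMod 3) = 0 := by
        have := hrelZ q hq n
        rw [if_pos hqN, zero_mul, add_zero] at this
        rw [hK]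
        push_cast
        rw [hafa, hafa, mul_comm n q]
        linear_combination this
      obtain ⟨m, hm⟩ := (ZMod.intCast_zmod_eq_zero_iff_dvd K 3).1 hK0
      refine ⟨m, ?_⟩
      rw [S49_qCoeff_sub, S49_qCoeff_heckeULin hq hqN, S49_qCoeff_zsmul]
      simp only [← haf]
      have hm' : (K : ℂ) = 3 * (m : ℂ) := by rw [hm]; push_cast; ring
      rw [← hm', hK]
      push_cast; ring
    obtain ⟨y, hy, hxy⟩ := S49_exists_eq_three_smul key
    exact ⟨y, hy, by rw [← hxy]; abel⟩

end Fermat.Agent.S49
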