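import Fermat.Agent.S49.Lattice
import Fermat.Agent.S49.DeligneSerre
import Fermat.Agent.S49.Multiplicative

/-!
# S49 helper: the lifting lemma for a mod-3 eigenvector in the integral lattice
-/

set_option autoImplicit false

open CongruenceSubgroup ModularFormClass CuspForm

namespace Fermat.Agent.S49

variable {N : ℕ} [NeZero N]

/-- The mod-3 eigen-property propagates from the generators to the whole Hecke algebra. -/
theorem S49_eigen_mod_three (f : CuspForm (Gamma0 N) 2) (hf : f ∈ intLattice N 2) (a : ℕ → ℤ)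
    (hT : ∀ (ℓ : ℕ) (hℓ : ℓ.Prime) (hℓN : ¬ ℓ ∣ N), ∃ y ∈ intLattice N 2,
      heckeTLin 2 hℓ hℓN f = a ℓ • f + (3 : ℤ) • y)
    (hU : ∀ (q : ℕ) (_ : q.Prime) (hqN : q ∣ N), ∃ y ∈ intLattice N 2,
      heckeULin 2 hqN f = a q • f + (3 : ℤ) • y)
    (t : Module.End ℂ (CuspForm (Gamma0 N) 2)) (ht : t ∈ heckeAlgebra N 2 ∅) :
    ∃ (c : ℤ) (y : CuspForm (Gamma0 N) 2), y ∈ intLattice N 2 ∧ t f = c • f + (3 : ℤ) • y := by
  unfold heckeAlgebra at ht
  induction ht using Algebra.adjoin_induction with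
  | mem x hx =>
    rcases hx with ⟨ℓ, hℓ, hℓN, -, rfl⟩ | ⟨q, hqN, hq, -, rfl⟩
    · obtain ⟨y, hy, h⟩ := hT ℓ hℓ hℓN
      exact ⟨a ℓ, y, hy, h⟩
    · obtain ⟨y, hy, h⟩ := hU q hq hqN
      exact ⟨a q, y, hy, h⟩
  | algebraMap r =>
    refine ⟨r, 0, zero_mem _, ?_⟩
    rw [smul_zero, add_zero, Algebra.algebraMap_eq_smul_one, LinearMap.smul_apply,
      Module.End.one_apply]
  | add x y hx hy ihx ihy =>
    obtain ⟨c₁, y₁, hy₁, h₁⟩ := ihx
    obtain ⟨c₂, y₂, hy₂, h₂⟩ := ihy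
    refine ⟨c₁ + c₂, y₁ + y₂, add_mem hy₁ hy₂, ?_⟩
    rw [LinearMap.add_apply, h₁, h₂, add_smul, smul_add]
    abel
  | mul x y hx hy ihx ihy =>
    obtain ⟨c₁, y₁, hy₁, h₁⟩ := ihx
    obtain ⟨c₂, y₂, hy₂, h₂⟩ := ihy
    have hxy₂ : x y₂ ∈ intLattice N 2 :=
      mem_intLattice_of_mem_heckeAlgebra one_le_two (S := ∅) hx hy₂
    refine ⟨c₁ * c₂, c₂ • y₁ + x y₂, add_mem (Submodule.smul_mem _ _ hy₁) hxy₂, ?_⟩
    rw [Module.End.mul_apply, h₂, map_add, map_zsmul, map_zsmul, h₁, smul_add, smul_add,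
      smul_smul, smul_smul, smul_smul, mul_comm c₂ c₁, mul_comm c₂ 3]
    abel

end Fermat.Agent.S49

namespace Fermat.Agent.S49

variable {N : ℕ} [NeZero N]

/-- Data of a mod-3 eigenvector in the integral lattice. -/
structure S49_Mod3Eigen (N : ℕ) [NeZero N] (f : CuspForm (Gamma0 N) 2) (a : ℕ → ℤ) : Prop where
  mem : f ∈ intLattice N 2
  coeff_one : ∃ m1 : ℤ, qCoeff f 1 = (m1 : ℂ) ∧ (m1 : ZMod 3) = 1
  hT : ∀ (ℓ : ℕ) (hℓ : ℓ.Prime) (hℓN : ¬ ℓ ∣ N), ∃ y ∈ intLattice N 2,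
      heckeTLin 2 hℓ hℓN f = a ℓ • f + (3 : ℤ) • y
  hU : ∀ (q : ℕ) (_ : q.Prime) (hqN : q ∣ N), ∃ y ∈ intLattice N 2,
      heckeULin 2 hqN f = a q • f + (3 : ℤ) • y

variable {f : CuspForm (Gamma0 N) 2} {a : ℕ → ℤ}

theorem S49_Mod3Eigen.alpha_self (E : S49_Mod3Eigen N f a) :
    S49_alpha (⟨f, E.mem⟩ : intLattice N 2) = 1 := by
  obtain ⟨m1, h1, h2⟩ := E.coeff_one
  rw [S49_alpha_apply, S49_intCoeff_eq 1 ⟨f, E.mem⟩ m1 h1, h2]

theorem S49_Mod3Eigen.apply_mem (E : S49_Mod3Eigen N f a)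
    (t : heckeAlgebra N 2 ∅) :
    (t : Module.End ℂ (CuspForm (Gamma0 N) 2)) f ∈ intLattice N 2 :=
  mem_intLattice_of_mem_heckeAlgebra one_le_two t.2 E.mem

theorem S49_Mod3Eigen.alpha_eq (E : S49_Mod3Eigen N f a)
    (x : intLattice N 2) (c : ℤ) (y : CuspForm (Gamma0 N) 2) (hy : y ∈ intLattice N 2)
    (h : (x : CuspForm (Gamma0 N) 2) = c • f + (3 : ℤ) • y) :
    S49_alpha x = (c : ZMod 3) := by
  have hx : x = c • (⟨f, E.mem⟩ : intLattice N 2) + (3 : ℤ) • (⟨y, hy⟩ : intLattice N 2) :=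
    Subtype.ext (by simpa using h)
  rw [hx, map_add, S49_alpha_three_smul, add_zero, S49_alpha_zsmul, E.alpha_self, mul_one]

/-- The mod-3 eigencharacter of the Hecke algebra. -/
noncomputable def S49_Mod3Eigen.phi (E : S49_Mod3Eigen N f a) :
    heckeAlgebra N 2 ∅ →+* ZMod 3 where
  toFun t := S49_alpha ⟨(t : Module.End ℂ (CuspForm (Gamma0 N) 2)) f, E.apply_mem t⟩
  map_one' := by
    have : (⟨((1 : heckeAlgebra N 2 ∅) : Module.End ℂ (CuspForm (Gamma0 N) 2)) f,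
        E.apply_mem 1⟩ : intLattice N 2) = ⟨f, E.mem⟩ := Subtype.ext (by simp)
    rw [this, E.alpha_self]
  map_mul' s t := by
    obtain ⟨c, y, hy, hc⟩ := S49_eigen_mod_three f E.mem a E.hT E.hU t.1 t.2
    obtain ⟨c', y', hy', hc'⟩ := S49_eigen_mod_three f E.mem a E.hT E.hU s.1 s.2
    have hsy : (s : Module.End ℂ (CuspForm (Gamma0 N) 2)) y ∈ intLattice N 2 :=
      mem_intLattice_of_mem_heckeAlgebra one_le_two s.2 hy
    rw [E.alpha_eq ⟨_, E.apply_mem t⟩ c y hy hc, E.alpha_eq ⟨_, E.apply_mem s⟩ c' y' hy' hc']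
    refine (E.alpha_eq ⟨_, E.apply_mem (s * t)⟩ (c' * c) (c • y' + (s : Module.End ℂ _) y)
      (add_mem (Submodule.smul_mem _ _ hy') hsy) ?_).trans (by push_cast; rfl)
    show ((s * t : heckeAlgebra N 2 ∅) : Module.End ℂ (CuspForm (Gamma0 N) 2)) f = _
    rw [Subalgebra.coe_mul, Module.End.mul_apply, hc, map_add, map_zsmul, map_zsmul, hc',
      smul_add, smul_add, smul_smul, smul_smul, smul_smul, mul_comm c c', mul_comm c 3]
    abel
  map_zero' := by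
    have : (⟨((0 : heckeAlgebra N 2 ∅) : Module.End ℂ (CuspForm (Gamma0 N) 2)) f,
        E.apply_mem 0⟩ : intLattice N 2) = 0 := Subtype.ext (by simp)
    rw [this, map_zero]
  map_add' s t := by
    have : (⟨((s + t : heckeAlgebra N 2 ∅) : Module.End ℂ (CuspForm (Gamma0 N) 2)) f,
        E.apply_mem (s + t)⟩ : intLattice N 2) =
        ⟨(s : Module.End ℂ (CuspForm (Gamma0 N) 2)) f, E.apply_mem s⟩ +
          ⟨(t : Module.End ℂ (CuspForm (Gamma0 N) 2)) f, E.apply_mem t⟩ :=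
      Subtype.ext (by simp)
    rw [this, map_add]

theorem S49_Mod3Eigen.phi_eq (E : S49_Mod3Eigen N f a) (t : heckeAlgebra N 2 ∅)
    (c : ℤ) (y : CuspForm (Gamma0 N) 2) (hy : y ∈ intLattice N 2)
    (h : (t : Module.End ℂ (CuspForm (Gamma0 N) 2)) f = c • f + (3 : ℤ) • y) :
    E.phi t = (c : ZMod 3) :=
  E.alpha_eq ⟨_, E.apply_mem t⟩ c y hy h

end Fermat.Agent.S49

namespace Fermat.Agent.S49

variable {N : ℕ} [NeZero N]

theorem S49_moduleFinite_heckeAlgebra (h : HasIntegralBasis N) :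
    Module.Finite ℤ (heckeAlgebra N 2 ∅) := by
  have hbij := latticeRestrictHom_bijective N ∅ (S49_hasIntegralStructure h)
  let e : heckeAlgebra N 2 ∅ ≃ₗ[ℤ] heckeLatticeAlgebra N ∅ :=
    LinearEquiv.ofBijective (latticeRestrictHom N ∅).toLinearMap hbij
  exact Module.Finite.equiv e.symm

variable {f : CuspForm (Gamma0 N) 2} {a : ℕ → ℤ}

/-- The lifting lemma: a mod-3 eigenvector in the lattice lifts to a genuine normalised
eigenform with congruent eigenvalues. -/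
theorem S49_main (h : HasIntegralBasis N) (E : S49_Mod3Eigen N f a) :
    ∃ (g : CuspForm (Gamma0 N) 2) (_ : g.IsNormalizedEigenform)
      (𝔪' : Ideal (integralClosure ℤ ℂ)), 𝔪'.IsMaximal ∧
      ((3 : ℕ) : integralClosure ℤ ℂ) ∈ 𝔪' ∧
      ∀ (ℓ : ℕ) (_ : ℓ.Prime) (_ : ¬ ℓ ∣ N),
        ∃ c : integralClosure ℤ ℂ, (c : ℂ) = ModularFormClass.qCoeff g ℓ ∧
          c - (a ℓ : integralClosure ℤ ℂ) ∈ 𝔪' := by
  classical
  haveI := S49_finiteDimensional h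
  haveI := S49_moduleFinite_heckeAlgebra h
  have hmax : (RingHom.ker E.phi).IsMaximal :=
    RingHom.ker_isMaximal_of_surjective E.phi (ZMod.ringHom_surjective E.phi)
  obtain ⟨g, ψ, 𝔪', hg0, hg, h𝔪'max, h𝔪'⟩ :=
    S49_deligneSerre (H := heckeAlgebra N 2 ∅) (V := CuspForm (Gamma0 N) 2)
      (heckeAlgebra N 2 ∅).val.toRingHom Subtype.val_injective (RingHom.ker E.phi)
  have hgT : ∀ (ℓ : ℕ) (hℓ : ℓ.Prime) (hℓN : ¬ ℓ ∣ N),
      heckeTLin 2 hℓ hℓN g =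
        ((ψ (heckeAlgebra.T hℓ hℓN (Set.notMem_empty _)) : integralClosure ℤ ℂ) : ℂ) • g :=
    fun ℓ hℓ hℓN => hg (heckeAlgebra.T hℓ hℓN (Set.notMem_empty _))
  have hgU : ∀ (ℓ : ℕ) (hℓ : ℓ.Prime) (hℓN : ℓ ∣ N),
      heckeULin 2 hℓN g =
        ((ψ (heckeAlgebra.U hℓ hℓN (Set.notMem_empty _)) : integralClosure ℤ ℂ) : ℂ) • g :=
    fun ℓ hℓ hℓN => hg (heckeAlgebra.U hℓ hℓN (Set.notMem_empty _))
  -- eigenvalues and coefficient sequences
  set lam : ℕ → ℂ := fun ℓ =>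
    if hℓ : ℓ.Prime then
      (if hN : ℓ ∣ N then
        ((ψ (heckeAlgebra.U hℓ hN (Set.notMem_empty _)) : integralClosure ℤ ℂ) : ℂ)
      else ((ψ (heckeAlgebra.T hℓ hN (Set.notMem_empty _)) : integralClosure ℤ ℂ) : ℂ))
    else 0 with hlam
  set e' : ℕ → ℂ := fun ℓ => if ℓ ∣ N then 0 else (ℓ : ℂ) with he'
  set b : ℕ → ℂ := fun n => qCoeff g n with hb
  have hrel : ∀ ℓ : ℕ, ℓ.Prime → ∀ n : ℕ,
      b (n * ℓ) + (if ℓ ∣ n then e' ℓ * b (n / ℓ) else 0) = lam ℓ * b n := by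
    intro ℓ hℓ n
    by_cases hN : ℓ ∣ N
    · have h1 := congrArg (fun x : CuspForm (Gamma0 N) 2 => qCoeff x n) (hgU ℓ hℓ hN)
      simp only [S49_qCoeff_heckeULin hℓ hN, S49_qCoeff_smul] at h1
      simp only [hb, he', hlam, dif_pos hℓ, dif_pos hN, if_pos hN, zero_mul, ite_self, add_zero]
      exact h1
    · have h1 := congrArg (fun x : CuspForm (Gamma0 N) 2 => qCoeff x n) (hgT ℓ hℓ hN)
      simp only [S49_qCoeff_heckeTLin hℓ hN, S49_qCoeff_smul] at h1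
      simp only [hb, he', hlam, dif_pos hℓ, dif_neg hN, if_neg hN]
      exact h1
  have hb1 : b 1 ≠ 0 := by
    intro h1
    have hall := S49_vanish_of_rel e' lam b (S49_qCoeff_zero g) h1 hrel
    exact hg0 (S49_eq_zero_of_qCoeff g hall)
  -- normalise
  set g' : CuspForm (Gamma0 N) 2 := (b 1)⁻¹ • g with hg'
  have hb' : ∀ n, qCoeff g' n = (b 1)⁻¹ * b n := fun n => S49_qCoeff_smul _ g n
  have hb'1 : qCoeff g' 1 = 1 := by rw [hb', inv_mul_cancel₀ hb1]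
  have hrel' : ∀ ℓ : ℕ, ℓ.Prime → ∀ n : ℕ,
      qCoeff g' (n * ℓ) + (if ℓ ∣ n then e' ℓ * qCoeff g' (n / ℓ) else 0) =
        lam ℓ * qCoeff g' n := by
    intro ℓ hℓ n
    have := congrArg (fun x => (b 1)⁻¹ * x) (hrel ℓ hℓ n)
    simp only [hb']
    split_ifs with hd
    · simp only [if_pos hd] at this
      linear_combination this
    · simp only [if_neg hd] at this
      linear_combination this
  have hlam' : ∀ ℓ : ℕ, ℓ.Prime → qCoeff g' ℓ = lam ℓ := by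
    intro ℓ hℓ
    have := hrel' ℓ hℓ 1
    have hnd : ¬ ℓ ∣ 1 := fun hd => hℓ.one_lt.ne' (Nat.dvd_one.mp hd)
    rw [if_neg hnd, add_zero, one_mul, hb'1, mul_one] at this
    exact this
  have hrel'' : ∀ ℓ : ℕ, ℓ.Prime → ∀ n : ℕ,
      qCoeff g' (n * ℓ) + (if ℓ ∣ n then e' ℓ * qCoeff g' (n / ℓ) else 0) =
        qCoeff g' ℓ * qCoeff g' n := by
    intro ℓ hℓ n
    rw [hlam' ℓ hℓ]
    exact hrel' ℓ hℓ n
  have hmult := S49_mul_of_rel e' (fun n => qCoeff g' n) hb'1 hrel''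
  have hpow : ∀ p r : ℕ, p.Prime →
      qCoeff g' (p ^ (r + 2)) + e' p * qCoeff g' (p ^ r) =
        qCoeff g' p * qCoeff g' (p ^ (r + 1)) := by
    intro p r hp
    have := hrel'' p hp (p ^ (r + 1))
    have hd : p ∣ p ^ (r + 1) := dvd_pow_self p (Nat.succ_ne_zero r)
    have hq : p ^ (r + 1) / p = p ^ r := by
      rw [pow_succ]; exact Nat.mul_div_cancel _ hp.pos
    rw [if_pos hd, hq, ← pow_succ] at this
    exact this
  have hnorm : g'.IsNormalizedEigenform :=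
    { qCoeff_one := hb'1
      qCoeff_mul_of_coprime := hmult
      qCoeff_prime_pow_of_not_dvd := fun p r hp hpN => by
        have := hpow p r hp
        simp only [he', if_neg hpN] at this
        linear_combination this
      qCoeff_prime_pow_of_dvd := fun p r hp hpN => by
        have := hpow p r hp
        simp only [he', if_pos hpN, zero_mul, add_zero] at this
        exact this }
  refine ⟨g', hnorm, 𝔪', h𝔪'max, ?_, fun ℓ hℓ hℓN => ?_⟩
  · have h3 : ((3 : ℕ) : heckeAlgebra N 2 ∅) ∈ RingHom.ker E.phi := by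
      rw [RingHom.mem_ker, map_natCast]
      decide
    rw [← h𝔪', Ideal.mem_comap, map_natCast] at h3
    exact h3
  · refine ⟨ψ (heckeAlgebra.T hℓ hℓN (Set.notMem_empty _)), ?_, ?_⟩
    · rw [hlam' ℓ hℓ]
      simp only [hlam, dif_pos hℓ, dif_neg hℓN]
    · obtain ⟨y, hy, hTy⟩ := E.hT ℓ hℓ hℓN
      have hφ : E.phi (heckeAlgebra.T hℓ hℓN (Set.notMem_empty _)) = (a ℓ : ZMod 3) :=
        E.phi_eq _ (a ℓ) y hy hTy
      have hmem : heckeAlgebra.T hℓ hℓN (Set.notMem_empty _) - ((a ℓ : ℤ) : heckeAlgebra N 2 ∅) ∈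
          RingHom.ker E.phi := by
        rw [RingHom.mem_ker, map_sub, map_intCast, hφ, sub_self]
      rw [← h𝔪', Ideal.mem_comap, map_sub, map_intCast] at hmem
      exact hmem

end Fermat.Agent.S49
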